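import Mathlib
import Fermat.Agent.S24.FFDeg

/-!
# Characteristic-free function field API, I: the fundamental identity as a class

`HasFundId K F` : every transcendental `t` has finitely many zeros and
`∑ ord_v t = [F : K(t)]` over them.  In characteristic zero this is
`Fermat.Agent.S24.FF.exists_finset_ord_pos`.  Everything in `Fermat/Agent/Lib/RR/*` is a copy of
`S24/FFDeg.lean` (helper264) and `S27/Riemann*.lean` (helper94) with `CharZero K` replaced by this
class.  Owner: helper19.
-/

set_option autoImplicit false

noncomputable section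

namespace Fermat.Agent.Lib.RR

open AlgebraicCurve IsDedekindDomain WithZero IntermediateField Polynomial Fermat.Agent.S24.FF

/-- the fundamental identity for the zeros of every transcendental element -/
class HasFundId (K F : Type*) [Field K] [Field F] [Algebra K F] : Prop where
  exists_finset_ord_pos : ∀ t : F, Transcendental K t →
    ∃ s : Finset (Place K F), (∀ v, v ∈ s ↔ 0 < v.ord t) ∧
      ∑ v ∈ s, v.ord t = (Module.finrank K⟮t⟯ F : ℤ)

instance (priority := 100) hasFundId_of_charZero (K F : Type*) [Field K] [Field F] [Algebra K F]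
    [CharZero K] [IsAlgClosed K] [IsFF1 K F] : HasFundId K F :=
  ⟨fun t ht => Fermat.Agent.S24.FF.exists_finset_ord_pos t ht⟩

section
variable {K F : Type*} [Field K] [Field F] [Algebra K F] [IsAlgClosed K] [IsFF1 K F] [HasFundId K F]

/-- poles of a transcendental element -/
theorem exists_finset_ord_neg (t : F) (ht : Transcendental K t) :
    ∃ s : Finset (Place K F), (∀ v, v ∈ s ↔ v.ord t < 0) ∧
      ∑ v ∈ s, v.ord t = -(Module.finrank K⟮t⟯ F : ℤ) := by
  obtain ⟨s, hs, hsum⟩ := HasFundId.exists_finset_ord_pos t⁻¹ (transcendental_inv ht)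
  refine ⟨s, fun v => ?_, ?_⟩
  · rw [hs, v.ord_inv]; omega
  · rw [adjoin_simple_inv] at hsum
    rw [← hsum, ← Finset.sum_neg_distrib]
    exact Finset.sum_congr rfl fun v _ => by rw [v.ord_inv, neg_neg]

theorem finite_ord_ne_zero (f : F) : {v : Place K F | v.ord f ≠ 0}.Finite := by
  rcases exists_const_or_transcendental (K := K) f with ⟨c, rfl⟩ | hf
  · simp [ord_algebraMap]
  · obtain ⟨s, hs, -⟩ := HasFundId.exists_finset_ord_pos f hf
    obtain ⟨s', hs', -⟩ := exists_finset_ord_neg f hf
    classical
    apply (s ∪ s').finite_toSet.subset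
    intro v hv
    change v.ord f ≠ 0 at hv
    rw [Finset.mem_coe, Finset.mem_union, hs, hs']
    omega

/-- **Principal divisors have degree zero.** -/
theorem sum_ord_eq_zero (f : F) (s : Finset (Place K F)) (hs : ∀ v : Place K F, v.ord f ≠ 0 → v ∈ s) :
    ∑ v ∈ s, v.ord f = 0 := by
  classical
  rcases exists_const_or_transcendental (K := K) f with ⟨c, rfl⟩ | hf
  · simp [ord_algebraMap]
  · obtain ⟨s₁, hs₁, hsum₁⟩ := HasFundId.exists_finset_ord_pos f hf
    obtain ⟨s₂, hs₂, hsum₂⟩ := exists_finset_ord_neg f hf
    have hdisj : Disjoint s₁ s₂ := by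
      rw [Finset.disjoint_left]
      intro v h1 h2
      rw [hs₁] at h1
      rw [hs₂] at h2
      omega
    have hsub : s₁ ∪ s₂ ⊆ s := by
      intro v hv
      rw [Finset.mem_union, hs₁, hs₂] at hv
      exact hs v (by omega)
    rw [← Finset.sum_subset hsub, Finset.sum_union hdisj, hsum₁, hsum₂]
    · ring
    · intro v _ hv
      rw [Finset.mem_union, hs₁, hs₂] at hv
      omega

theorem finsum_ord_eq_zero (f : F) : ∑ᶠ v : Place K F, v.ord f = 0 := by
  rw [finsum_eq_sum_of_support_subset (s := (finite_ord_ne_zero (K := K) f).toFinset)]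
  · exact sum_ord_eq_zero f _ (fun v hv => by simpa using hv)
  · intro v hv
    simpa using hv

end

end Fermat.Agent.Lib.RR
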