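import Mathlib
import Fermat.Agent.Lib.RR.LSpace

/-!
# S27, Part B: Riemann's inequality `deg D - l(D) ≤ γ`
Characteristic-free copy (helper19) of the S27 file of helper94.
-/

set_option autoImplicit false

noncomputable section

namespace Fermat.Agent.Lib.RR

open AlgebraicCurve Fermat.Agent.S24.FF Module IntermediateField

variable {K F : Type*} [Field K] [Field F] [Algebra K F]

theorem linearIndependent_pow_of_transcendental {A : Type*} [CommRing A] [Algebra K A] {x : A}
    (hx : Transcendental K x) : LinearIndependent K (fun i : ℕ => x ^ i) := by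
  have h1 : LinearIndependent K (fun i : ℕ => (Polynomial.monomial i (1 : K))) := by
    have := (Polynomial.basisMonomials K).linearIndependent
    simpa [Polynomial.coe_basisMonomials] using this
  have h2 := h1.map' (Polynomial.aeval x).toLinearMap
    (LinearMap.ker_eq_bot.mpr (transcendental_iff_injective.mp hx))
  have h3 : (fun i : ℕ => x ^ i) =
      (⇑(Polynomial.aeval x).toLinearMap ∘ fun i => (Polynomial.monomial i) (1 : K)) := by
    ext i
    simp
  rw [h3]
  exact h2

variable [IsAlgClosed K] [IsFF1 K F] [HasFundId K F]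

theorem defect_mono (hF : ∃ x : F, Transcendental K x) {D D' : Divisor K F} (h : D ≤ D') :
    Divisor.degree D - finrank K (riemannRochSpace D) ≤
      Divisor.degree D' - finrank K (riemannRochSpace D') := by
  have h1 := finrank_L_add_le hF D (D' - D) (sub_nonneg.mpr h)
  rw [add_sub_cancel, map_sub] at h1
  omega

/-- many functions with poles only at the poles of `x` -/
theorem exists_lower_bound {x : F} (hx : Transcendental K x) :
    ∃ C : Divisor K F, 0 ≤ C ∧ ∀ l : ℕ,
      (l + 1) * finrank K⟮x⟯ F ≤ finrank K (riemannRochSpace (l • poleDiv x + C)) := by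
  classical
  have hF : ∃ x : F, Transcendental K x := ⟨x, hx⟩
  have hfd : FiniteDimensional K⟮x⟯ F := IsFF1.finite x hx
  set n := finrank K⟮x⟯ F with hn
  let b := Module.finBasis K⟮x⟯ F
  let C : Divisor K F := ∑ j, poleDiv (b j)
  have hCapply : ∀ v : Place K F, C v = ∑ j, poleDiv (b j) v := by
    intro v
    simp [C, Finsupp.finsetSum_apply]
  have hC0 : 0 ≤ C := Finset.sum_nonneg fun j _ => poleDiv_nonneg _
  have hCj : ∀ (j : Fin n) (v : Place K F), -C v ≤ v.ord (b j) := by
    intro j v
    have h1 : poleDiv (b j) v ≤ C v := by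
      rw [hCapply]
      exact Finset.single_le_sum (f := fun j => poleDiv (b j) v)
        (fun i _ => poleDiv_nonneg (K := K) (b i) v) (Finset.mem_univ j)
    have h2 : -v.ord (b j) ≤ poleDiv (b j) v := by
      rw [poleDiv_apply]; exact le_max_right _ _
    omega
  refine ⟨C, hC0, fun l => ?_⟩
  have hgen : Transcendental K (AdjoinSimple.gen K x) := by
    intro halg
    apply hx
    have := halg.algebraMap (A := F)
    rwa [AdjoinSimple.algebraMap_gen] at this
  have hpow : LinearIndependent K (fun i : Fin (l + 1) => (AdjoinSimple.gen K x) ^ (i : ℕ)) :=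
    (linearIndependent_pow_of_transcendental hgen).comp _ Fin.val_injective
  have hli := linearIndependent_smul hpow b.linearIndependent
  have hx0 : x ≠ 0 := by
    rintro rfl
    exact hx isAlgebraic_zero
  have hmem : ∀ p : Fin (l + 1) × Fin n,
      (AdjoinSimple.gen K x) ^ (p.1 : ℕ) • b p.2 ∈ riemannRochSpace (l • poleDiv x + C) := by
    rintro ⟨i, j⟩
    have hbj : b j ≠ 0 := b.ne_zero j
    have he : (AdjoinSimple.gen K x) ^ (i : ℕ) • b j = x ^ (i : ℕ) * b j := by
      rw [Algebra.smul_def, map_pow, AdjoinSimple.algebraMap_gen]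
    simp only [he]
    rw [mem_riemannRochSpace_iff]
    intro v
    right
    rw [v.ord_mul (pow_ne_zero _ hx0) hbj, ord_pow, Finsupp.add_apply, Finsupp.smul_apply,
      poleDiv_apply, nsmul_eq_mul]
    have h1 := hCj j v
    have h2 : (0 : ℤ) ≤ max 0 (-v.ord x) := le_max_left _ _
    have h3 : -v.ord x ≤ max 0 (-v.ord x) := le_max_right _ _
    have h4 : ((i : ℕ) : ℤ) ≤ l := by
      have := i.2
      omega
    have h5 : ((i : ℕ) : ℤ) * (-v.ord x) ≤ (l : ℤ) * max 0 (-v.ord x) :=
      calc ((i : ℕ) : ℤ) * (-v.ord x) ≤ ((i : ℕ) : ℤ) * max 0 (-v.ord x) :=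
            mul_le_mul_of_nonneg_left h3 (by positivity)
        _ ≤ (l : ℤ) * max 0 (-v.ord x) := mul_le_mul_of_nonneg_right h4 h2
    push_cast
    nlinarith
  have hfin := finite_L hF (l • poleDiv x + C)
  have hli' : LinearIndependent K (fun p : Fin (l + 1) × Fin n =>
      (⟨_, hmem p⟩ : riemannRochSpace (l • poleDiv x + C))) := by
    apply LinearIndependent.of_comp (riemannRochSpace (l • poleDiv x + C)).subtype
    exact hli
  have := hli'.fintype_card_le_finrank
  simpa using this

theorem exists_bound (hF : ∃ x : F, Transcendental K x) :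
    ∃ γ : ℤ, ∀ D : Divisor K F,
      Divisor.degree D - finrank K (riemannRochSpace D) ≤ γ := by
  obtain ⟨x, hx⟩ := hF
  have hF : ∃ x : F, Transcendental K x := ⟨x, hx⟩
  have hfd : FiniteDimensional K⟮x⟯ F := IsFF1.finite x hx
  obtain ⟨C, hC0, hC⟩ := exists_lower_bound hx
  set n := finrank K⟮x⟯ F with hn
  have hnpos : 0 < n := Module.finrank_pos
  set B : Divisor K F := poleDiv x with hB
  have hdegB : Divisor.degree B = n := degree_poleDiv x hx
  set γ : ℤ := Divisor.degree C - n with hγ
  have hl : ∀ l : ℕ, Divisor.degree (l • B) - finrank K (riemannRochSpace (l • B)) ≤ γ := by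
    intro l
    have h1 := finrank_L_add_le hF (l • B) C hC0
    have h2 := hC l
    have h3 : ((l + 1) * n : ℤ) ≤ finrank K (riemannRochSpace (l • B + C)) := by exact_mod_cast h2
    rw [map_nsmul, hdegB, nsmul_eq_mul]
    linarith
  refine ⟨γ, fun A => ?_⟩
  set A₁ : Divisor K F := A ⊔ 0 with hA₁
  have hAA₁ : A ≤ A₁ := le_sup_left
  have hA₁0 : 0 ≤ A₁ := le_sup_right
  set l : ℕ := (γ + Divisor.degree A₁ + 1).toNat with hldef
  have hlge : γ + Divisor.degree A₁ + 1 ≤ l := Int.self_le_toNat _
  have hln : (l : ℤ) ≤ l * n := by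
    have : (1 : ℤ) ≤ n := by exact_mod_cast hnpos
    nlinarith [Int.natCast_nonneg l]
  have h1 := finrank_L_add_le hF (l • B - A₁) A₁ hA₁0
  rw [sub_add_cancel] at h1
  have h2 := hl l
  rw [map_nsmul, hdegB, nsmul_eq_mul] at h2
  have hpos : 0 < finrank K (riemannRochSpace (l • B - A₁)) := by
    have : (0 : ℤ) < finrank K (riemannRochSpace (l • B - A₁)) := by linarith
    exact_mod_cast this
  have hnt : Nontrivial (riemannRochSpace (l • B - A₁)) := Module.nontrivial_of_finrank_pos hpos
  obtain ⟨⟨z, hz⟩, hz0⟩ := exists_ne (0 : riemannRochSpace (l • B - A₁))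
  have hz0' : z ≠ 0 := fun h => hz0 (Subtype.ext h)
  set D : Divisor K F := A₁ - divOf z with hD
  have hDle : D ≤ l • B := by
    intro v
    have := ((mem_riemannRochSpace_iff.mp hz) v).resolve_left hz0'
    rw [Finsupp.sub_apply] at this
    rw [hD, Finsupp.sub_apply, divOf_apply]
    omega
  have hDl : finrank K (riemannRochSpace A₁) = finrank K (riemannRochSpace D) := by
    have := finrank_L_add_divOf D hz0'
    rwa [hD, sub_add_cancel] at this
  have hDdeg : Divisor.degree D = Divisor.degree A₁ := by
    rw [hD, map_sub, degree_divOf, sub_zero]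
  have m1 := defect_mono hF hAA₁
  have m2 := defect_mono hF hDle
  have m3 := hl l
  rw [hDdeg, ← hDl] at m2
  linarith

end Fermat.Agent.Lib.RR
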