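import Mathlib
import Fermat.Agent.Lib.RR.Fund
import Fermat.Agent.Lib.RR.CharP.SepCase
import Fermat.Agent.Lib.RR.CharP.SepCrit
import Fermat.Agent.Lib.RR.CharP.Frob
import Fermat.Agent.Lib.RR.CharP.Degree

/-!
# Riemann in characteristic `p`: the fundamental identity for every transcendental element
of a function field with a separating element.   Owner: helper183.

A transcendental `t` is either separating (`SepCase`) or a `p`-th power `s ^ p`
(`Frob` + `SepCrit`); in the second case `ord_v t = p ord_v s` and `[F : k(t)] = p [F : k(s)]`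
(`Degree`), and we induct on `[F : k(t)]`.
-/

set_option autoImplicit false

noncomputable section

namespace Fermat.Agent.Lib.RR

open AlgebraicCurve IntermediateField Fermat.Agent.S24.FF

theorem isSeparable_or_exists_pow {k F : Type*} [Field k] [Field F] [Algebra k F] (p : ℕ)
    [Fact p.Prime] [CharP k p] [PerfectField k] (x : F) [Algebra.IsSeparable k⟮x⟯ F] (t : F)
    [FiniteDimensional k⟮t⟯ F] : Algebra.IsSeparable k⟮t⟯ F ∨ ∃ s : F, t = s ^ p := by
  by_cases h : ∃ s : F, t = s ^ p
  · exact Or.inr h
  · left
    push Not at h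
    have : CharP F p := charP_of_injective_algebraMap (algebraMap k F).injective p
    have : CharP k⟮t⟯ p := charP_of_injective_algebraMap (algebraMap k k⟮t⟯).injective p
    have : ExpChar k⟮t⟯ p := ExpChar.prime Fact.out
    exact isSeparable_of_adjoin_pow_eq_top p (adjoin_pow_eq_top_of_notMem p x t h)

theorem exists_finset_ord_pos_charP {k F : Type*} [Field k] [Field F] [Algebra k F]
    [IsAlgClosed k] [IsFF1 k F] (p : ℕ) [Fact p.Prime] [CharP k p] (x : F)
    [Algebra.IsSeparable k⟮x⟯ F] (n : ℕ) :
    ∀ t : F, Transcendental k t → Module.finrank k⟮t⟯ F = n →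
    ∃ s : Finset (Place k F), (∀ v, v ∈ s ↔ 0 < v.ord t) ∧
      ∑ v ∈ s, v.ord t = (Module.finrank k⟮t⟯ F : ℤ) := by
  induction n using Nat.strong_induction_on with
  | _ n ih =>
    intro t ht hn
    have : FiniteDimensional k⟮t⟯ F := IsFF1.finite t ht
    rcases isSeparable_or_exists_pow (k := k) p x t with hsep | ⟨s, rfl⟩
    · exact exists_finset_ord_pos_of_isSeparable t ht
    · have hp : p.Prime := Fact.out
      have hs : Transcendental k s := fun h => ht (h.pow p)
      have : FiniteDimensional k⟮s⟯ F := IsFF1.finite s hs
      have hpos : 0 < Module.finrank k⟮s⟯ F := Module.finrank_pos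
      have hdeg := finrank_adjoin_pow p hs
      have hlt : Module.finrank k⟮s⟯ F < n := by
        rw [← hn, hdeg]
        exact lt_mul_of_one_lt_left hpos hp.one_lt
      obtain ⟨S, hS, hsum⟩ := ih _ hlt s hs rfl
      have hord : ∀ v : Place k F, v.ord (s ^ p) = p * v.ord s := fun v => ord_pow v s p
      refine ⟨S, fun v => ?_, ?_⟩
      · rw [hS, hord]
        have : (0 : ℤ) < p := by exact_mod_cast hp.pos
        exact (mul_pos_iff_of_pos_left this).symm
      · simp_rw [hord]
        rw [← Finset.mul_sum, hsum, hdeg]
        push_cast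
        ring

/-- **The fundamental identity in every characteristic**, for a function field with a separating
element. -/
theorem hasFundId_of_isSeparable {k F : Type*} [Field k] [Field F] [Algebra k F] [IsAlgClosed k]
    [Fermat.Agent.S24.FF.IsFF1 k F] (x : F) (hx : Transcendental k x)
    [Algebra.IsSeparable (IntermediateField.adjoin k {x}) F] : HasFundId k F := by
  obtain ⟨q, hq⟩ := ExpChar.exists k
  cases hq with
  | zero => infer_instance
  | prime hp =>
    have : Fact q.Prime := ⟨hp⟩
    exact ⟨fun t ht => exists_finset_ord_pos_charP q x _ t ht rfl⟩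

end Fermat.Agent.Lib.RR
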