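import Mathlib
import Fermat.Agent.Lib.RR.Bound
import Fermat.Agent.Lib.RR.Adele

/-!
# S27, Part B: Riemann's theorem for the Prelude repartitions

Setting: `K` algebraically closed of characteristic zero, `F/K` a function field in one variable
(`Fermat.Agent.S24.FF.IsFF1`) containing a transcendental element.

Main results:
* `finite_L`, `finite_H1` : `L(D)` and `H1(D)` are finite dimensional;
* `riemann_formula` : `l(D) - h1(D) = deg D + 1 - genusFF`;
* `exists_H1_subsingleton` : `H1(D) = 0` as soon as `deg D ≥ c`.

Characteristic-free copy (helper19) of the S27 file of helper94.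
-/

set_option autoImplicit false

noncomputable section

namespace Fermat.Agent.Lib.RR

open AlgebraicCurve Fermat.Agent.S24.FF Module

variable {K F : Type*} [Field K] [Field F] [Algebra K F]
variable [IsAlgClosed K] [IsFF1 K F] [HasFundId K F]

omit [HasFundId K F] in
theorem finite_H1_step_iff (D : Divisor K F) (v : Place K F) :
    Module.Finite K (H1 D) ↔ Module.Finite K (H1 (D + Finsupp.single v 1)) := by
  obtain ⟨t, ht0, ht⟩ := exists_ord_eq v (-(D v + 1))
  exact finite_quotient_iff (PD D) (PD (D + Finsupp.single v 1)) (eAt v t)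
    (PD_mono (le_add_single D v)) (PD_step_le ht0 ht)

variable (hF : ∃ x : F, Transcendental K x)
include hF

/-- The Euler characteristic `l - h1` goes up by one when a place is added. -/
theorem chi_step (D : Divisor K F) (v : Place K F) [Module.Finite K (H1 D)] :
    (finrank K (riemannRochSpace (D + Finsupp.single v 1)) : ℤ)
        - finrank K (H1 (D + Finsupp.single v 1)) =
      finrank K (riemannRochSpace D) - finrank K (H1 D) + 1 := by
  have hfinL := finite_L hF D
  by_cases h : riemannRochSpace (D + Finsupp.single v 1) ≤ riemannRochSpace D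
  · -- no new function
    have hLeq : riemannRochSpace (D + Finsupp.single v 1) = riemannRochSpace D :=
      le_antisymm h (L_mono (le_add_single D v))
    obtain ⟨t, ht0, ht⟩ := exists_ord_eq v (-(D v + 1))
    have h1 := finrank_quotient_eq_succ (PD D) (PD (D + Finsupp.single v 1)) (eAt v t)
      (PD_mono (le_add_single D v))
      (le_sup_left (a := repartitionsOf (D + Finsupp.single v 1))
        (eAt_mem_repartitionsOf (by rw [add_single_apply_self, ht])))
      (eAt_not_mem_PD ht0 ht h) (PD_step_le ht0 ht)
    rw [hLeq]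
    have h1' : finrank K (H1 D) = finrank K (H1 (D + Finsupp.single v 1)) + 1 := h1
    omega
  · obtain ⟨f, hf, hf'⟩ := SetLike.not_le_iff_exists.mp h
    have h1 := finrank_eq_succ _ _ f (L_mono (le_add_single D v)) hf hf' (L_step_le hf hf')
    have h2 : finrank K (H1 (D + Finsupp.single v 1)) = finrank K (H1 D) :=
      (Submodule.quotEquivOfEq _ _ (PD_step_eq_of_new hf hf')).finrank_eq
    omega

/-- There is a divisor `D₀` with `A = A(D₀) + F`. -/
theorem exists_PD_eq_top : ∃ D₀ : Divisor K F, PD D₀ = ⊤ ∧
    ∀ D : Divisor K F, Divisor.degree D - finrank K (riemannRochSpace D) ≤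
      Divisor.degree D₀ - finrank K (riemannRochSpace D₀) := by
  obtain ⟨γ, hγ⟩ := exists_bound hF
  obtain ⟨m, ⟨D₀, hD₀⟩, hmax⟩ := Int.exists_greatest_of_bdd
    (P := fun m => ∃ D : Divisor K F, Divisor.degree D - finrank K (riemannRochSpace D) = m)
    ⟨γ, by rintro _ ⟨D, rfl⟩; exact hγ D⟩ ⟨_, 0, rfl⟩
  have hmax' : ∀ D : Divisor K F, Divisor.degree D - finrank K (riemannRochSpace D) ≤
      Divisor.degree D₀ - finrank K (riemannRochSpace D₀) := by
    intro D
    rw [hD₀]
    exact hmax _ ⟨D, rfl⟩
  refine ⟨D₀, ?_, hmax'⟩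
  have key : ∀ E : Divisor K F, 0 ≤ E → repartitionsOf (D₀ + E) ≤ PD D₀ := by
    intro E hE
    refine eff_induction (P := fun E => 0 ≤ E → repartitionsOf (D₀ + E) ≤ PD D₀) ?_ ?_ E hE hE
    · intro _
      rw [add_zero]
      exact le_sup_left
    · intro E v hE ih _
      have ih' := ih hE
      rw [← add_assoc]
      -- `L` must grow
      have h1 := defect_mono hF (le_add_of_nonneg_right hE : D₀ ≤ D₀ + E)
      have h2 := hmax' (D₀ + E + Finsupp.single v 1)
      rw [map_add _ (D₀ + E), degree_single_eq] at h2
      have hgrow : ¬ riemannRochSpace (D₀ + E + Finsupp.single v 1) ≤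
          riemannRochSpace (D₀ + E) := by
        intro hle
        have hfin := finite_L hF (D₀ + E)
        have := Submodule.finrank_mono hle
        omega
      obtain ⟨f, hf, hf'⟩ := SetLike.not_le_iff_exists.mp hgrow
      exact (repartitionsOf_step_le_of_new hf hf').trans (sup_le ih' le_sup_right)
  rw [eq_top_iff]
  intro α _
  obtain ⟨E, hE, hα⟩ := exists_eff_mem_repartitionsOf D₀ α
  exact key E hE hα

omit hF [IsAlgClosed K] [IsFF1 K F] [HasFundId K F] in
theorem subsingleton_H1_iff (D : Divisor K F) : Subsingleton (H1 D) ↔ PD D = ⊤ :=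
  Submodule.Quotient.subsingleton_iff

omit hF [IsAlgClosed K] [IsFF1 K F] [HasFundId K F] in
/-- transport of a property along adding / removing places -/
theorem divisor_induction {P : Divisor K F → Prop}
    (hstep : ∀ (D : Divisor K F) (v : Place K F), P D ↔ P (D + Finsupp.single v 1))
    (D₀ D : Divisor K F) (h : P D₀) : P D := by
  have hnat : ∀ (n : ℕ) (v : Place K F) (D : Divisor K F),
      P D ↔ P (D + Finsupp.single v (n : ℤ)) := by
    intro n v
    induction n with
    | zero => intro D; simp
    | succ n ih =>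
      intro D
      rw [ih D, hstep _ v, add_assoc, ← Finsupp.single_add]
      push_cast
      rfl
  have hint : ∀ (n : ℤ) (v : Place K F) (D : Divisor K F),
      P D ↔ P (D + Finsupp.single v n) := by
    intro n v D
    obtain ⟨m, rfl | rfl⟩ := n.eq_nat_or_neg
    · exact hnat m v D
    · rw [hnat m v (D + Finsupp.single v (-(m : ℤ))), add_assoc, ← Finsupp.single_add]
      simp
  have hall : ∀ E : Divisor K F, ∀ D : Divisor K F, P D ↔ P (D + E) := by
    intro E
    induction E using Finsupp.induction_linear with
    | zero => intro D; simp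
    | add E₁ E₂ h₁ h₂ => intro D; rw [h₁ D, h₂ (D + E₁), add_assoc]
    | single v n => exact hint n v
  have := (hall (D - D₀) D₀).mp h
  rwa [add_sub_cancel] at this

theorem finite_H1 (D : Divisor K F) : Module.Finite K (H1 D) := by
  obtain ⟨D₀, hD₀, -⟩ := exists_PD_eq_top hF
  refine divisor_induction (P := fun D => Module.Finite K (H1 D)) finite_H1_step_iff D₀ D ?_
  have : Subsingleton (H1 D₀) := (subsingleton_H1_iff D₀).mpr hD₀
  have : Finite (H1 D₀) := Finite.of_subsingleton
  exact Module.Finite.of_finite

omit hF in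
/-- `l(D) - h1(D) - deg D` -/
def chi0 (D : Divisor K F) : ℤ :=
  (finrank K (riemannRochSpace D) : ℤ) - finrank K (H1 D) - Divisor.degree D

theorem chi0_step (D : Divisor K F) (v : Place K F) :
    chi0 (D + Finsupp.single v 1) = chi0 D := by
  have := finite_H1 hF D
  have h := chi_step hF D v
  unfold chi0
  rw [map_add, degree_single_eq]
  omega

/-- `l(D) - h1(D) - deg D` does not depend on `D`. -/
theorem chi0_eq (D D' : Divisor K F) : chi0 D = chi0 D' := by
  refine divisor_induction (P := fun D => chi0 D = chi0 D') ?_ D' D rfl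
  intro D v
  rw [chi0_step hF]

/-- **Riemann's theorem** (Riemann–Roch without duality). -/
theorem riemann_formula (D : Divisor K F) :
    (finrank K (riemannRochSpace D) : ℤ) - finrank K (H1 D) =
      Divisor.degree D + 1 - genusFF K F := by
  have h := chi0_eq hF D 0
  unfold chi0 at h
  rw [finrank_L_zero, map_zero] at h
  have hg : genusFF K F = finrank K (H1 (0 : Divisor K F)) := rfl
  rw [hg]
  push_cast at h ⊢
  omega

/-- Riemann's inequality. -/
theorem riemann_inequality (D : Divisor K F) :
    Divisor.degree D + 1 - genusFF K F ≤ finrank K (riemannRochSpace D) := by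
  have := riemann_formula hF D
  omega

/-- `H1(D) = 0` for all divisors of large degree. -/
theorem exists_H1_subsingleton :
    ∃ c : ℤ, ∀ D : Divisor K F, c ≤ Divisor.degree D → Subsingleton (H1 D) := by
  obtain ⟨D₀, hD₀, hmax⟩ := exists_PD_eq_top hF
  refine ⟨Divisor.degree D₀ + genusFF K F, fun A hA => ?_⟩
  have h1 := riemann_inequality hF (A - D₀)
  rw [map_sub] at h1
  have hpos : 0 < finrank K (riemannRochSpace (A - D₀)) := by
    have : (0 : ℤ) < finrank K (riemannRochSpace (A - D₀)) := by omega
    exact_mod_cast this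
  have hnt : Nontrivial (riemannRochSpace (A - D₀)) := Module.nontrivial_of_finrank_pos hpos
  obtain ⟨⟨z, hz⟩, hz0⟩ := exists_ne (0 : riemannRochSpace (A - D₀))
  have hz0' : z ≠ 0 := fun h => hz0 (Subtype.ext h)
  have hle : D₀ ≤ A + divOf z := by
    intro v
    have := ((mem_riemannRochSpace_iff.mp hz) v).resolve_left hz0'
    rw [Finsupp.sub_apply] at this
    rw [Finsupp.add_apply, divOf_apply]
    omega
  have htop : PD (A + divOf z) = ⊤ := top_le_iff.mp (hD₀ ▸ PD_mono hle)
  have hsub : Subsingleton (H1 (A + divOf z)) := (subsingleton_H1_iff _).mpr htop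
  have h0 : finrank K (H1 (A + divOf z)) = 0 := Module.finrank_zero_of_subsingleton
  have f1 := riemann_formula hF (A + divOf z)
  have f2 := riemann_formula hF A
  rw [finrank_L_add_divOf A hz0', map_add, degree_divOf, h0] at f1
  have h3 : finrank K (H1 A) = 0 := by omega
  have := finite_H1 hF A
  exact Module.finrank_zero_iff.mp h3

theorem exists_PD_eq_top_of_degree :
    ∃ c : ℤ, ∀ D : Divisor K F, c ≤ Divisor.degree D →
      repartitionsOf D ⊔ principalRepartitions K F = ⊤ := by
  obtain ⟨c, hc⟩ := exists_H1_subsingleton hF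
  exact ⟨c, fun D hD => (subsingleton_H1_iff D).mp (hc D hD)⟩

/-- for large degree, `l(D) = deg D + 1 - g` -/
theorem exists_finrank_L_eq :
    ∃ c : ℤ, ∀ D : Divisor K F, c ≤ Divisor.degree D →
      (finrank K (riemannRochSpace D) : ℤ) = Divisor.degree D + 1 - genusFF K F := by
  obtain ⟨c, hc⟩ := exists_H1_subsingleton hF
  refine ⟨c, fun D hD => ?_⟩
  have := hc D hD
  have h0 : finrank K (H1 D) = 0 := Module.finrank_zero_of_subsingleton
  have := riemann_formula hF D
  omega

end Fermat.Agent.Lib.RR
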