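import Fermat.Agent.S27.FibRam
import Fermat.Agent.Lib.RR.CharP

/-! # Riemann in characteristic `p`, node N6: all but finitely many fibres of a separating element
are reduced.

Characteristic-free copy (helper183) of `S27/FibRam.lean` and of `smoothPoint_ord`
(`S27/SmoothPoint.lean`): `CharZero K` is replaced by separability of `F / K(x)`. -/

set_option autoImplicit false

noncomputable section

namespace Fermat.Agent.Lib.RR

open AlgebraicCurve Fermat.Agent.S24.FF Fermat.Agent.S27 Fermat.Agent.S27.SmoothPoint Polynomial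
open scoped Polynomial.Bivariate

variable {K F : Type*} [Field K] [Field F] [Algebra K F] [IsAlgClosed K] [IsFF1 K F]

theorem smoothPoint_ord' {x y : F} (hgen : Gen2 K x y) {P : K[X][Y]}
    (hP : aevalAeval x y P = 0) {w : Place K F} {a b : K} (hx : IsVal w x a) (hy : IsVal w y b)
    (hsm : evalEval a b (derivative P) ≠ 0) : w.ord (x - algebraMap K F a) = 1 := by
  obtain ⟨ht0, htpos⟩ := ord_pos hgen hP hx hy hsm
  obtain ⟨π, hπ⟩ := exists_ord_eq_one w
  have hπ0 : π ≠ 0 := ne_zero_of_ord_ne_zero w (by rw [hπ]; exact one_ne_zero)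
  obtain ⟨n, m, U, V, hU, hV, h⟩ := exists_zpow_mul hgen hP hx hy hsm π hπ0
  obtain ⟨hU0, hUord⟩ := ne_zero_and_ord_eq_zero (IsVal.aevalAeval hx hy U) hU
  obtain ⟨hV0, hVord⟩ := ne_zero_and_ord_eq_zero (IsVal.aevalAeval hx hy V) hV
  have ho := congrArg w.ord h
  rw [w.ord_mul (mul_ne_zero hπ0 (pow_ne_zero _ ht0)) hU0, w.ord_mul hπ0 (pow_ne_zero _ ht0),
    w.ord_mul (pow_ne_zero _ ht0) hV0, ord_pow, ord_pow, hUord, hVord, hπ] at ho
  have h1 : ((n : ℤ) - m) * w.ord (x - algebraMap K F a) = 1 := by
    linear_combination -ho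
  have hdvd : w.ord (x - algebraMap K F a) ∣ 1 := ⟨(n : ℤ) - m, by rw [mul_comm]; exact h1.symm⟩
  exact Int.eq_one_of_dvd_one htpos.le hdvd

open scoped IntermediateField.algebraAdjoinAdjoin in
/-- primitive element, in polynomial form -/
theorem exists_gen2' (x : F) (hx : Transcendental K x)
    [Algebra.IsSeparable (IntermediateField.adjoin K {x}) F] :
    ∃ (y : F) (P : K[X][Y]), Gen2 K x y ∧ aevalAeval x y P = 0 ∧
      aevalAeval x y (derivative P) ≠ 0 := by
  have : FiniteDimensional (IntermediateField.adjoin K {x}) F := IsFF1.finite x hx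
  obtain ⟨y, hy⟩ := Field.exists_primitive_element (IntermediateField.adjoin K {x}) F
  have hgen : Gen2 K x y := by
    apply FibRam.gen2_of_adjoin_eq_top
    rw [← IntermediateField.adjoin_adjoin_left, hy]
    rfl
  have hsep : (minpoly (IntermediateField.adjoin K {x}) y).Separable :=
    Algebra.IsSeparable.isSeparable _ y
  obtain ⟨b, hbM, hb⟩ := IsLocalization.integerNormalization_spec
    (nonZeroDivisors (Algebra.adjoin K ({x} : Set F))) (minpoly (IntermediateField.adjoin K {x}) y)
  have hb' : b • minpoly (IntermediateField.adjoin K {x}) y =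
      C (algebraMap (Algebra.adjoin K ({x} : Set F)) (IntermediateField.adjoin K {x}) b) *
        minpoly (IntermediateField.adjoin K {x}) y := by
    rw [← algebraMap_smul (IntermediateField.adjoin K {x}), smul_eq_C_mul]
  rw [hb'] at hb
  have hb0 : algebraMap (Algebra.adjoin K ({x} : Set F)) (IntermediateField.adjoin K {x}) b ≠ 0 := by
    intro h0
    have := (IsFractionRing.injective (Algebra.adjoin K ({x} : Set F))
      (IntermediateField.adjoin K {x})) (h0.trans (map_zero _).symm)
    exact nonZeroDivisors.ne_zero hbM this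
  let x' : Algebra.adjoin K ({x} : Set F) := ⟨x, Algebra.subset_adjoin rfl⟩
  have hψ : Function.Surjective
      ((aeval x' : K[X] →ₐ[K] Algebra.adjoin K ({x} : Set F)) :
        K[X] →+* Algebra.adjoin K ({x} : Set F)) := by
    rintro ⟨a, ha⟩
    have ha' := ha
    rw [Algebra.adjoin_singleton_eq_range_aeval] at ha'
    obtain ⟨p, hp⟩ := ha'
    refine ⟨p, Subtype.ext ?_⟩
    exact (Polynomial.aeval_algebraMap_apply F x' p).symm.trans hp
  obtain ⟨P, hP⟩ := Polynomial.map_surjective _ hψ
    (IsLocalization.integerNormalization (nonZeroDivisors (Algebra.adjoin K ({x} : Set F)))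
      (minpoly (IntermediateField.adjoin K {x}) y))
  have key : ∀ Q : K[X][Y], aevalAeval x y Q = aeval y
      ((Q.map ((aeval x' : K[X] →ₐ[K] Algebra.adjoin K ({x} : Set F)) :
        K[X] →+* Algebra.adjoin K ({x} : Set F))).map
          (algebraMap (Algebra.adjoin K ({x} : Set F)) (IntermediateField.adjoin K {x}))) := by
    intro Q
    rw [FibRam.aevalAeval_eq_eval₂, aeval_def, eval₂_map, eval₂_map]
    congr 1
    ext p
    · simp
    · simp
      rfl
  refine ⟨y, P, hgen, ?_, ?_⟩
  · rw [key, hP, hb, map_mul, minpoly.aeval, mul_zero]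
  · rw [key, ← derivative_map, ← derivative_map, hP, hb, derivative_mul, derivative_C, zero_mul,
      zero_add, map_mul, aeval_C]
    refine mul_ne_zero ?_ (hsep.aeval_derivative_ne_zero (minpoly.aeval _ y))
    rw [Ne, map_eq_zero_iff _ (algebraMap (IntermediateField.adjoin K {x}) F).injective]
    exact hb0

/-- A4. All but finitely many places are unramified over `x`. -/
theorem finite_ramified_places' (x : F) (hx : Transcendental K x)
    [Algebra.IsSeparable (IntermediateField.adjoin K {x}) F] :
    {v : Place K F | ∃ a : K, 1 < v.ord (x - algebraMap K F a)}.Finite := by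
  have := hasFundId_of_isSeparable x hx
  obtain ⟨y, P, hgen, hP, hP'⟩ := exists_gen2' x hx
  apply (((Fermat.Agent.Lib.RR.finite_ord_ne_zero (K := K) y).union
    (Fermat.Agent.Lib.RR.finite_ord_ne_zero (K := K) (aevalAeval x y (derivative P))))).subset
  rintro v ⟨a, ha⟩
  by_contra hv
  rw [Set.mem_union, not_or] at hv
  obtain ⟨h1, h2⟩ := hv
  have h1 : v.ord y = 0 := by simpa using h1
  have h2 : v.ord (aevalAeval x y (derivative P)) = 0 := by simpa using h2
  have hxa : IsVal v x a := Or.inr (by omega)
  have hyb : IsVal v y (ev v y) := isVal_ev (by omega)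
  have hg := IsVal.aevalAeval hxa hyb (derivative P)
  have hsm : evalEval a (ev v y) (derivative P) ≠ 0 := by
    intro h0
    rw [h0, isVal_zero_iff] at hg
    rcases hg with hg | hg
    · exact hP' hg
    · omega
  have := smoothPoint_ord' hgen hP hxa hyb hsm
  omega

/-- A4'. All but finitely many fibres of `x` are reduced. -/
theorem finite_ramified_values' (x : F) (hx : Transcendental K x)
    [Algebra.IsSeparable (IntermediateField.adjoin K {x}) F] :
    {a : K | ∃ v : Place K F, 1 < v.ord (x - algebraMap K F a)}.Finite := by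
  apply ((finite_ramified_places' x hx).image (fun v => ev v x)).subset
  rintro a ⟨v, hv⟩
  exact ⟨v, ⟨a, hv⟩, ev_eq_of_ord_sub_pos (by omega)⟩


/-- Only finitely many fibres of a separating element are not multiplicity free. -/
theorem finite_setOf_not_simple (x : F) (hx : Transcendental K x)
    [Algebra.IsSeparable (IntermediateField.adjoin K {x}) F] :
    {c : K | ∃ v : Place K F, 2 ≤ v.ord (x - algebraMap K F c)}.Finite :=
  (finite_ramified_values' x hx).subset fun _ ⟨v, hv⟩ => ⟨v, by omega⟩

end Fermat.Agent.Lib.RR
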